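import Fermat.Agent.Lib.RR.H804.Modular
import Fermat.Agent.S24.Count
import Fermat.Agent.S20.H872.Index

/-!
# S18 / node d2, part 3: the degree `[F_{Np} : F_N] = p + 1` for `p ∤ N`  (helper804)

`F_N = ℚ̄(j(q^d) : d ∣ N) ⊆ ℚ̄((q))`.  From `[F_N : ℚ̄(j)] = ψ(N)` (S24) and the tower law.
-/

set_option autoImplicit false

noncomputable section

open AlgebraicCurve IntermediateField ModularCurve

namespace Fermat.Agent.S18.H804

open Fermat.Agent.S24

/-- `F_N ⊆ F_M` for `N ∣ M`. -/
theorem modularFunctionFieldBar_mono {N M : ℕ} [NeZero N] [NeZero M] (h : N ∣ M) :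
    modularFunctionFieldBar N ≤ modularFunctionFieldBar M := by
  apply IntermediateField.adjoin.mono
  apply Set.image_mono
  exact full_degeneracy_le h

/-- The `j`-line `ℚ̄(j) ⊆ ℚ̄((q))`. -/
def jLine : IntermediateField Kbar (LaurentSeries Kbar) := Kbar⟮coeffEmb Kbar jq⟯

theorem jLine_le (N : ℕ) [NeZero N] : jLine ≤ modularFunctionFieldBar N := by
  rw [jLine, adjoin_simple_le_iff]
  exact (jF N).2

theorem adjoin_jF_eq_comap (N : ℕ) [NeZero N] :
    (Kbar⟮jF N⟯ : IntermediateField Kbar (FF N)) = jLine.comap (modularFunctionFieldBar N).val := by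
  have h : IntermediateField.lift (Kbar⟮jF N⟯ : IntermediateField Kbar (FF N)) = jLine := by
    rw [IntermediateField.lift_adjoin_simple]
    rfl
  rw [← h, IntermediateField.lift, IntermediateField.comap_map]

/-- `[F_N : ℚ̄(j)] = ψ(N)` in `relfinrank` form. -/
theorem relfinrank_jLine (N : ℕ) [NeZero N] :
    jLine.relfinrank (modularFunctionFieldBar N) = dedekindPsi N := by
  have h1 := Fermat.Agent.Lib.RR.H804.finrank_jF N
  rw [card_XX, adjoin_jF_eq_comap, IntermediateField.finrank_comap,
    IntermediateField.fieldRange_val] at h1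
  exact h1

/-- `[F_{Np} : F_N] = p + 1` for a prime `p ∤ N`. -/
theorem relfinrank_mul_prime (N p : ℕ) [NeZero N] (hp : p.Prime) (hpN : ¬ p ∣ N) :
    (modularFunctionFieldBar N).relfinrank (modularFunctionFieldBar (N * p)) = p + 1 := by
  haveI : NeZero (N * p) := ⟨mul_ne_zero (NeZero.ne N) hp.ne_zero⟩
  have h1 := relfinrank_jLine N
  have h2 := relfinrank_jLine (N * p)
  have h3 := IntermediateField.relfinrank_mul_relfinrank (jLine_le N)
    (modularFunctionFieldBar_mono (Dvd.intro p rfl : N ∣ N * p))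
  rw [h1, h2, Fermat.Agent.S20.H872.dedekindPsi_mul_prime_of_not_dvd (NeZero.ne N) hp hpN,
    mul_comm] at h3
  have hpos : 0 < dedekindPsi N := by
    rw [← card_XX]
    exact Nat.card_pos
  exact Nat.eq_of_mul_eq_mul_right hpos h3

end Fermat.Agent.S18.H804
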