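import Mathlib

/-!
# S18 / node d2, generic part 2: Kummer descent along an extension of degree prime to `m`
(helper804)

If `F / E` is finite of degree prime to `m` and `z ∈ E` is an `m`-th power in `F`, then `z` is an
`m`-th power in `E` (norm argument).
-/

set_option autoImplicit false

namespace Fermat.Agent.S18.H804

variable {E F : Type*} [Field E] [Field F] [Algebra E F]

/-- **Kummer descent.** -/
theorem exists_pow_eq_of_coprime_finrank {m : ℕ}
    (hcop : Nat.Coprime (Module.finrank E F) m) {y : F} {z : E}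
    (hy : y ^ m = algebraMap E F z) : ∃ y' : E, y' ^ m = z := by
  rcases Nat.eq_zero_or_pos m with rfl | hm
  · -- `m = 0`: `1 = z`
    rw [pow_zero] at hy
    refine ⟨1, ?_⟩
    rw [pow_zero]
    apply (algebraMap E F).injective
    rw [map_one, hy]
  rcases eq_or_ne z 0 with rfl | hz
  · exact ⟨0, zero_pow hm.ne'⟩
  set d := Module.finrank E F with hd
  -- `N(y)^m = z^d`
  have hnorm : (Algebra.norm E y) ^ m = z ^ d := by
    rw [← map_pow, hy, Algebra.norm_algebraMap]
  -- Bezout
  have hgcd : Int.gcd (d : ℤ) (m : ℤ) = 1 := by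
    rw [Int.gcd_natCast_natCast]
    exact hcop
  have hbez := Int.gcd_eq_gcd_ab (d : ℤ) (m : ℤ)
  rw [hgcd] at hbez
  set a := Int.gcdA (d : ℤ) (m : ℤ)
  set b := Int.gcdB (d : ℤ) (m : ℤ)
  have hN0 : Algebra.norm E y ≠ 0 := by
    intro h
    rw [h, zero_pow hm.ne'] at hnorm
    exact pow_ne_zero d hz hnorm.symm
  refine ⟨(Algebra.norm E y) ^ a * z ^ b, ?_⟩
  have h1 : ((Algebra.norm E y) ^ a * z ^ b) ^ m
      = ((Algebra.norm E y) ^ m) ^ a * (z ^ m) ^ b := by
    rw [mul_pow, ← zpow_natCast, ← zpow_natCast, ← zpow_mul, ← zpow_mul,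
      ← zpow_natCast (Algebra.norm E y) m, ← zpow_natCast z m, ← zpow_mul, ← zpow_mul,
      mul_comm a, mul_comm b]
  rw [h1, hnorm, ← zpow_natCast z d, ← zpow_natCast z m, ← zpow_mul, ← zpow_mul,
    ← zpow_add₀ hz]
  have : (d : ℤ) * a + (m : ℤ) * b = 1 := by
    have := hbez
    push_cast at this
    linarith
  rw [this, zpow_one]

end Fermat.Agent.S18.H804
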