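import Fermat.Agent.S18.H804.Restrict
import Fermat.Agent.S18.H804.Descent
import Fermat.Agent.S18.H804.Degree
import Fermat.Prelude.Def_ModularCurve_ReductionModL
import Fermat.Prelude.Def_FLTPrelim_Ramification

/-!
# S18 / node d2: transfer `CORE(M) → CORE(N)`  (helper804)

Exact statement (Skeleton `node_d2` of row-lead helper18, with `IsInt`, `toF`, `CoreStatement`,
`levelM` restated verbatim here, definitionally equal to the ones of `S18/Spec.lean` and
`S18/Integ/Skeleton.lean`):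

    theorem node_d2 (N : ℕ) [NeZero N] {ℓ : ℕ} [Fact ℓ.Prime] (hℓN : ¬ ℓ ∣ N)
        (A : ValuationSubring Qb) (hA : A.LiesOverPrime ℓ) (m : ℕ) (hm : ¬ ℓ ∣ m) :
        CoreStatement (levelM N ℓ) A m → CoreStatement N A m

General form: `coreStatement_of_dvd` (`N ∣ M`, `[F_M : F_N]` prime to `m`).
-/

set_option autoImplicit false

noncomputable section

namespace Fermat.Agent.S18.H804

open ModularCurve AlgebraicCurve HahnSeries IntermediateField

/-- The field `Q̄`. -/
abbrev Qb : Type := AlgebraicClosure ℚ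

/-- Verbatim copy of `Fermat.Agent.S18.IsInt`. -/
def IsInt (A : ValuationSubring Qb) (N : ℕ) (U : LaurentSeries A) : Prop :=
  coeffMap A.subtype U ∈ modularFunctionFieldBar N ∧
    coeffMap (IsLocalRing.residue A) U ∈
      modularFunctionFieldFullC (IsLocalRing.ResidueField A) N ∧
    coeffMap (IsLocalRing.residue A) U ≠ 0

/-- Verbatim copy of `Fermat.Agent.S18.toF`. -/
def toF {A : ValuationSubring Qb} {N : ℕ} {U : LaurentSeries A} (hU : IsInt A N U) :
    modularFunctionFieldBar N :=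
  ⟨coeffMap A.subtype U, hU.1⟩

/-- Verbatim copy of `Fermat.Agent.S18.CoreStatement`. -/
def CoreStatement (N : ℕ) (A : ValuationSubring Qb) (m : ℕ) : Prop :=
  ∀ (U₁ U₂ : LaurentSeries A) (h₁ : IsInt A N U₁) (h₂ : IsInt A N U₂),
    coeffMap (IsLocalRing.residue A) U₁ = coeffMap (IsLocalRing.residue A) U₂ →
    (∀ v : Place Qb (modularFunctionFieldBar N),
      (m : ℤ) ∣ v.ord (toF h₁) - v.ord (toF h₂)) →
    ∃ (c : Qb) (y : modularFunctionFieldBar N), c ≠ 0 ∧ y ≠ 0 ∧
      toF h₁ = algebraMap Qb (modularFunctionFieldBar N) c * y ^ m * toF h₂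

/-- Verbatim copy of `Fermat.Agent.S18.Integ.levelM`. -/
def levelM (N ℓ : ℕ) : ℕ := if ℓ = 3 then Nat.lcm N 2 else if ℓ = 2 then Nat.lcm N 3 else N

/-- **d2, general form**: `CORE(M) → CORE(N)` for `N ∣ M` with `[F_M : F_N]` prime to `m`. -/
theorem coreStatement_of_dvd {N M : ℕ} [NeZero N] [NeZero M] (hNM : N ∣ M)
    (A : ValuationSubring Qb) (m : ℕ)
    (hcop : Nat.Coprime
      ((modularFunctionFieldBar N).relfinrank (modularFunctionFieldBar M)) m)
    (hM : CoreStatement M A m) : CoreStatement N A m := by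
  intro U₁ U₂ h₁ h₂ hred hdiv
  have hle : modularFunctionFieldBar N ≤ modularFunctionFieldBar M :=
    modularFunctionFieldBar_mono hNM
  have hlek : modularFunctionFieldFullC (IsLocalRing.ResidueField A) N ≤
      modularFunctionFieldFullC (IsLocalRing.ResidueField A) M :=
    full_degeneracyC_le (IsLocalRing.ResidueField A) hNM
  have h₁' : IsInt A M U₁ := ⟨hle h₁.1, hlek h₁.2.1, h₁.2.2⟩
  have h₂' : IsInt A M U₂ := ⟨hle h₂.1, hlek h₂.2.1, h₂.2.2⟩
  let φ : modularFunctionFieldBar N →ₐ[Qb] modularFunctionFieldBar M :=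
    IntermediateField.inclusion hle
  have hφ₁ : φ (toF h₁) = toF h₁' := rfl
  have hφ₂ : φ (toF h₂) = toF h₂' := rfl
  obtain ⟨c, y, hc, hy, hcy⟩ := hM U₁ U₂ h₁' h₂' hred (fun w => by
    have := dvd_ord_sub_ord_of_forall φ (m : ℤ) (toF h₁) (toF h₂) hdiv w
    rwa [hφ₁, hφ₂] at this)
  by_cases h20 : toF h₂ = 0
  · refine ⟨1, 1, one_ne_zero, one_ne_zero, ?_⟩
    have h2' : toF h₂' = 0 := by rw [← hφ₂, h20, map_zero]
    rw [h2', mul_zero] at hcy
    have h10 : toF h₁ = 0 := (map_eq_zero φ).mp (hφ₁.trans hcy)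
    rw [h10, h20, mul_zero]
  have h20' : toF h₂' ≠ 0 := by
    rw [← hφ₂]
    exact (map_ne_zero φ).mpr h20
  have hcF : algebraMap Qb (modularFunctionFieldBar N) c ≠ 0 :=
    (map_ne_zero _).mpr hc
  have hcF' : algebraMap Qb (modularFunctionFieldBar M) c ≠ 0 :=
    (map_ne_zero _).mpr hc
  -- the quotient `z = U₁ / (c U₂) ∈ F_N` is an `m`-th power in `F_M`
  set z : modularFunctionFieldBar N :=
    toF h₁ * (toF h₂)⁻¹ * (algebraMap Qb (modularFunctionFieldBar N) c)⁻¹ with hzdef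
  have hz : φ z = y ^ m := by
    rw [hzdef, map_mul, map_mul, map_inv₀, map_inv₀, hφ₁, hφ₂, AlgHom.commutes, hcy]
    field_simp
  have hym : y ^ m ≠ 0 := pow_ne_zero m hy
  have hz0 : z ≠ 0 := by
    intro h
    rw [h, map_zero] at hz
    exact hym hz.symm
  have hfinal : ∀ y₀ : modularFunctionFieldBar N, y₀ ^ m = z →
      toF h₁ = algebraMap Qb (modularFunctionFieldBar N) c * y₀ ^ m * toF h₂ := by
    intro y₀ hy₀
    rw [hy₀, hzdef]
    field_simp
  -- Kummer descent
  have hdesc : ∃ y₀ : modularFunctionFieldBar N, y₀ ^ m = z := by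
    have hfr := IntermediateField.relfinrank_eq_finrank_of_le hle
    rw [hfr] at hcop
    let y' : IntermediateField.extendScalars hle := ⟨(y : LaurentSeries Qb), y.2⟩
    have hy' : y' ^ m = algebraMap (modularFunctionFieldBar N)
        (IntermediateField.extendScalars hle) z := by
      apply Subtype.ext
      have := congrArg (fun t : modularFunctionFieldBar M => (t : LaurentSeries Qb)) hz
      exact this.symm
    exact exists_pow_eq_of_coprime_finrank hcop hy'
  obtain ⟨y₀, hy₀⟩ := hdesc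
  by_cases hy₀0 : y₀ = 0
  · -- then `m = 0` and `z = 1`
    rcases Nat.eq_zero_or_pos m with hm0 | hmpos
    · refine ⟨c, 1, hc, one_ne_zero, hfinal 1 ?_⟩
      rw [← hy₀, hm0, pow_zero, pow_zero]
    · exfalso
      rw [hy₀0, zero_pow hmpos.ne'] at hy₀
      exact hz0 hy₀.symm
  · exact ⟨c, y₀, hc, hy₀0, hfinal y₀ hy₀⟩

/-- **NODE D2** (exact Skeleton statement). -/
theorem node_d2 (N : ℕ) [NeZero N] {ℓ : ℕ} [Fact ℓ.Prime] (hℓN : ¬ ℓ ∣ N)
    (A : ValuationSubring Qb) (hA : A.LiesOverPrime ℓ) (m : ℕ) (hm : ¬ ℓ ∣ m) :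
    CoreStatement (levelM N ℓ) A m → CoreStatement N A m := by
  unfold levelM
  split_ifs with h3 h2
  · -- `ℓ = 3`, level `lcm N 2`
    subst h3
    by_cases h2N : 2 ∣ N
    · rw [Nat.lcm_eq_left h2N]
      exact id
    · have hcop2 : Nat.Coprime N 2 :=
        (Nat.Coprime.symm ((Nat.Prime.coprime_iff_not_dvd Nat.prime_two).mpr h2N))
      rw [hcop2.lcm_eq_mul]
      have : NeZero (N * 2) := ⟨mul_ne_zero (NeZero.ne N) two_ne_zero⟩
      refine coreStatement_of_dvd (Dvd.intro 2 rfl) A m ?_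
      rw [relfinrank_mul_prime N 2 Nat.prime_two h2N]
      exact (Nat.Prime.coprime_iff_not_dvd Nat.prime_three).mpr hm
  · -- `ℓ = 2`, level `lcm N 3`
    subst h2
    by_cases h3N : 3 ∣ N
    · rw [Nat.lcm_eq_left h3N]
      exact id
    · have hcop3 : Nat.Coprime N 3 :=
        (Nat.Coprime.symm ((Nat.Prime.coprime_iff_not_dvd Nat.prime_three).mpr h3N))
      rw [hcop3.lcm_eq_mul]
      have : NeZero (N * 3) := ⟨mul_ne_zero (NeZero.ne N) three_ne_zero⟩
      refine coreStatement_of_dvd (Dvd.intro 3 rfl) A m ?_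
      rw [relfinrank_mul_prime N 3 Nat.prime_three h3N]
      have h2m : Nat.Coprime 2 m := (Nat.Prime.coprime_iff_not_dvd Nat.prime_two).mpr hm
      exact (Nat.Coprime.pow_left 2 h2m : Nat.Coprime (2 ^ 2) m)
  · exact id

end Fermat.Agent.S18.H804
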