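import Mathlib
import Fermat.Prelude.Def_AlgebraicCurve_DivisorClassGroup
import Fermat.Agent.S24.FFOrdLike

/-!
# S18 / node d2, generic part 1: restriction of a place along an embedding of fields
(helper804)

For an embedding `φ : E → F` of fields over `K` and a place `w` of `F`, either `w` is trivial on
`E`, or `w` restricts to a place `v` of `E` and `ord_w (φ f) = e * ord_v f` for a fixed `e`.
-/

set_option autoImplicit false

namespace Fermat.Agent.S18.H804

open AlgebraicCurve Fermat.Agent.S24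

variable {K E F : Type*} [Field K] [Field E] [Field F] [Algebra K E] [Algebra K F]

/-- A valuation subring cut out by an integer-valued order function is a principal ideal ring. -/
theorem isPrincipalIdealRing_of_ordLike (O : ValuationSubring E) (N : E → ℤ)
    (hmul : ∀ f g : E, f ≠ 0 → g ≠ 0 → N (f * g) = N f + N g)
    (hN : ∀ f : E, f ≠ 0 → (f ∈ O ↔ 0 ≤ N f)) : IsPrincipalIdealRing O := by
  classical
  refine ⟨fun I => ?_⟩
  by_cases hI : I = ⊥
  · rw [hI]
    exact bot_isPrincipal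
  -- a nonzero element of minimal order
  have hne : ∃ n : ℕ, ∃ g : O, g ∈ I ∧ g ≠ 0 ∧ N (g : E) = n := by
    obtain ⟨g, hgI, hg0⟩ := Submodule.exists_mem_ne_zero_of_ne_bot hI
    have hgE : (g : E) ≠ 0 := fun h => hg0 (Subtype.ext h)
    have hnn : 0 ≤ N (g : E) := (hN _ hgE).mp g.2
    exact ⟨(N (g : E)).toNat, g, hgI, hg0, (Int.toNat_of_nonneg hnn).symm⟩
  obtain ⟨f, hfI, hf0, hfn⟩ := Nat.find_spec hne
  have hmin : ∀ g : O, g ∈ I → g ≠ 0 → N (f : E) ≤ N (g : E) := by
    intro g hgI hg0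
    have hgE : (g : E) ≠ 0 := fun h => hg0 (Subtype.ext h)
    have hnn : 0 ≤ N (g : E) := (hN _ hgE).mp g.2
    have := Nat.find_min' hne ⟨g, hgI, hg0, (Int.toNat_of_nonneg hnn).symm⟩
    rw [hfn]
    have h2 : ((Nat.find hne : ℕ) : ℤ) ≤ ((N (g : E)).toNat : ℤ) := by exact_mod_cast this
    rwa [Int.toNat_of_nonneg hnn] at h2
  have hfE : (f : E) ≠ 0 := fun h => hf0 (Subtype.ext h)
  refine ⟨⟨f, ?_⟩⟩
  apply le_antisymm
  · intro g hgI
    rw [Ideal.submodule_span_eq, Ideal.mem_span_singleton']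
    rcases eq_or_ne g 0 with rfl | hg0
    · exact ⟨0, zero_mul _⟩
    have hgE : (g : E) ≠ 0 := fun h => hg0 (Subtype.ext h)
    have hq : (g : E) * (f : E)⁻¹ ∈ O := by
      rw [hN _ (mul_ne_zero hgE (inv_ne_zero hfE)), hmul _ _ hgE (inv_ne_zero hfE),
        FF.ordLike_inv N hmul hfE]
      have := hmin g hgI hg0
      omega
    refine ⟨⟨_, hq⟩, ?_⟩
    apply Subtype.ext
    show (g : E) * (f : E)⁻¹ * (f : E) = g
    rw [inv_mul_cancel_right₀ hfE]
  · rw [Ideal.submodule_span_eq, Ideal.span_le, Set.singleton_subset_iff]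
    exact hfI

/-- **Restriction of a place** along an embedding of fields over `K`. -/
theorem exists_place_comap (φ : E →ₐ[K] F) (w : Place K F) :
    (∀ f : E, w.ord (φ f) = 0) ∨
      ∃ (v : Place K E) (e : ℤ), ∀ f : E, w.ord (φ f) = v.ord f * e := by
  by_cases htriv : ∀ f : E, w.ord (φ f) = 0
  · exact Or.inl htriv
  right
  rw [not_forall] at htriv
  obtain ⟨f₀, hf₀⟩ := htriv
  have hf₀0 : f₀ ≠ 0 := by
    rintro rfl
    simp at hf₀
  set N : E → ℤ := fun f => w.ord (φ f) with hNdef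
  have hφ0 : ∀ {f : E}, f ≠ 0 → φ f ≠ 0 := fun hf => (map_ne_zero φ).mpr hf
  have hmul : ∀ f g : E, f ≠ 0 → g ≠ 0 → N (f * g) = N f + N g := by
    intro f g hf hg
    simp only [hNdef, map_mul]
    exact w.ord_mul (hφ0 hf) (hφ0 hg)
  let O : ValuationSubring E := w.toValuationSubring.comap (φ : E →+* F)
  have hN : ∀ f : E, f ≠ 0 → (f ∈ O ↔ 0 ≤ N f) := by
    intro f _
    show φ f ∈ w.toValuationSubring ↔ _
    exact FF.mem_iff_ord_nonneg w
  have htop : O ≠ ⊤ := by
    intro h
    have h1 : f₀ ∈ O := h ▸ ValuationSubring.mem_top f₀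
    have h2 : f₀⁻¹ ∈ O := h ▸ ValuationSubring.mem_top f₀⁻¹
    have h1' := (hN _ hf₀0).mp h1
    have h2' := (hN _ (inv_ne_zero hf₀0)).mp h2
    rw [FF.ordLike_inv N hmul hf₀0] at h2'
    apply hf₀
    show N f₀ = 0
    omega
  let v : Place K E :=
    { toValuationSubring := O
      algebraMap_mem' := fun a => by
        show φ (algebraMap K E a) ∈ w.toValuationSubring
        rw [φ.commutes]
        exact w.algebraMap_mem' a
      ne_top' := htop
      isPrincipalIdealRing' := isPrincipalIdealRing_of_ordLike O N hmul hN }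
  obtain ⟨ϖ, hϖ, -⟩ := FF.exists_irreducible_coe v
  refine ⟨v, N (ϖ : E), fun f => ?_⟩
  rcases eq_or_ne f 0 with rfl | hf
  · simp
  · exact FF.ordLike_eq_ord_mul N hmul v hN hϖ hf

/-- Divisibility of orders passes from the places of `E` to the places of `F`. -/
theorem dvd_ord_sub_ord_of_forall (φ : E →ₐ[K] F) (m : ℤ) (a b : E)
    (h : ∀ v : Place K E, m ∣ v.ord a - v.ord b) (w : Place K F) :
    m ∣ w.ord (φ a) - w.ord (φ b) := by
  rcases exists_place_comap φ w with h0 | ⟨v, e, hv⟩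
  · rw [h0, h0]
    simp
  · rw [hv, hv, ← sub_mul]
    exact Dvd.dvd.mul_right (h v) e

end Fermat.Agent.S18.H804
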